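/-
S27lib / BR1 / Kaehler (helper6).
In characteristic zero, if `s` is a finite transcendence basis of the field extension `F / K` over
which `F` is separable algebraic, then `Ω[F⁄K]` has `F`-dimension `#s`
(`F` is formally étale over the polynomial ring `K[s]`).
-/
import Mathlib

set_option autoImplicit false
set_option linter.style.haveILetI false

noncomputable section

namespace Fermat.Agent.S27lib.BR1

open KaehlerDifferential MvPolynomial IntermediateField TensorProduct

universe u v

variable {K : Type u} {F : Type v} [Field K] [Field F] [Algebra K F]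

/-- `Ω[F⁄K]` has dimension `#ι` if `F` is separable algebraic over `K(x_i : i ∈ ι)`, the `x_i`
algebraically independent. -/
theorem finrank_kaehler_eq_card {ι : Type v} [Fintype ι] (x : ι → F)
    (hx : AlgebraicIndependent K x)
    [hsep : Algebra.IsSeparable (IntermediateField.adjoin K (Set.range x)) F] :
    Module.finrank F Ω[F⁄K] = Fintype.card ι := by
  classical
  set E : IntermediateField K F := IntermediateField.adjoin K (Set.range x) with hE
  letI algPF : Algebra (MvPolynomial ι K) F := (MvPolynomial.aeval x).toRingHom.toAlgebra
  haveI : IsScalarTower K (MvPolynomial ι K) F :=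
    IsScalarTower.of_algebraMap_eq fun r => ((MvPolynomial.aeval x).commutes r).symm
  -- the map `K[ι] → E`
  let xE : ι → E := fun i => ⟨x i, IntermediateField.subset_adjoin K _ ⟨i, rfl⟩⟩
  letI algPE : Algebra (MvPolynomial ι K) E := (MvPolynomial.aeval xE).toRingHom.toAlgebra
  haveI : IsScalarTower K (MvPolynomial ι K) E :=
    IsScalarTower.of_algebraMap_eq fun r => ((MvPolynomial.aeval xE).commutes r).symm
  have hPEF : ∀ p : MvPolynomial ι K,
      algebraMap (MvPolynomial ι K) F p = algebraMap E F (algebraMap (MvPolynomial ι K) E p) := by
    intro p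
    show MvPolynomial.aeval x p = ((MvPolynomial.aeval xE p : E) : F)
    have h1 : (E.val.comp (MvPolynomial.aeval xE)) = MvPolynomial.aeval x := by
      apply MvPolynomial.algHom_ext
      intro i
      simp [xE]
    rw [← h1]
    rfl
  haveI : IsScalarTower (MvPolynomial ι K) E F := IsScalarTower.of_algebraMap_eq hPEF
  -- `E` is the fraction field of `K[ι]`
  let e0 : FractionRing (MvPolynomial ι K) ≃ₐ[K] E := hx.aevalEquivField
  let e1 : FractionRing (MvPolynomial ι K) ≃ₐ[MvPolynomial ι K] E :=
    { e0.toRingEquiv with
      commutes' := by
        intro p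
        apply Subtype.ext
        show ((hx.aevalEquivField (algebraMap _ _ p) : E) : F) = _
        rw [hx.aevalEquivField_algebraMap_apply_coe]
        exact hPEF p }
  haveI : IsFractionRing (MvPolynomial ι K) E :=
    IsLocalization.isLocalization_of_algEquiv (nonZeroDivisors (MvPolynomial ι K)) e1
  haveI : Algebra.FormallyEtale (MvPolynomial ι K) E :=
    Algebra.FormallyEtale.of_isLocalization (nonZeroDivisors (MvPolynomial ι K))
  haveI : Algebra.FormallyEtale E F := Algebra.FormallyEtale.of_isSeparable E F
  haveI : Algebra.FormallyEtale (MvPolynomial ι K) F :=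
    Algebra.FormallyEtale.comp (MvPolynomial ι K) E F
  have e := KaehlerDifferential.tensorKaehlerEquivOfFormallyEtale K (MvPolynomial ι K) F
  haveI : Module.Free (MvPolynomial ι K) Ω[MvPolynomial ι K⁄K] :=
    Module.Free.of_basis (KaehlerDifferential.mvPolynomialBasis K ι)
  rw [← e.finrank_eq, Module.finrank_baseChange,
    Module.finrank_eq_card_basis (KaehlerDifferential.mvPolynomialBasis K ι)]

end Fermat.Agent.S27lib.BR1
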