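/-
S27lib / BR1 / Main (helper6).
**BR1**: a function field in the sense of the frozen statement S27 (`IsCurveOver K F`, i.e.
`Ω[F⁄K]` free of rank one, and `F / K` finitely generated), over a field of characteristic zero,
has a separating variable: `x` transcendental over `K` with `F` finite over `K(x)`.
-/
import Mathlib
import Fermat.Prelude.Def_AlgebraicCurve_IsCurveOver
import Fermat.Agent.S27lib.BR1.Kaehler

set_option autoImplicit false
set_option linter.style.haveILetI false

noncomputable section

namespace Fermat.Agent.S27lib.BR1

open KaehlerDifferential IntermediateField AlgebraicCurve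

universe u v

/-- **BR1** -/
theorem br1 (K : Type u) (F : Type v) [Field K] [Field F] [Algebra K F] [CharZero K]
    [IsCurveOver K F] [Algebra.EssFiniteType K F] :
    ∃ x : F, Transcendental K x ∧ FiniteDimensional K⟮x⟯ F := by
  classical
  obtain ⟨s, hs, hsep⟩ := exists_isTranscendenceBasis_and_isSeparable_of_perfectField K F
  have hrange : Set.range ((↑) : s → F) = (s : Set F) := Subtype.range_coe
  haveI : Algebra.IsSeparable (IntermediateField.adjoin K (Set.range ((↑) : s → F))) F := by
    rw [hrange]
    exact hsep
  have hcard := finrank_kaehler_eq_card ((↑) : s → F) hs.1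
  rw [IsCurveOver.finrank_kaehler, Fintype.card_coe] at hcard
  obtain ⟨x, rfl⟩ := Finset.card_eq_one.mp hcard.symm
  refine ⟨x, ?_, ?_⟩
  · exact hs.1.transcendental ⟨x, Finset.mem_singleton_self x⟩
  · rw [Finset.coe_singleton] at hsep
    haveI : Algebra.IsAlgebraic K⟮x⟯ F := Algebra.IsSeparable.isAlgebraic K⟮x⟯ F
    haveI : Algebra.EssFiniteType K⟮x⟯ F := Algebra.EssFiniteType.of_comp K K⟮x⟯ F
    exact Algebra.finite_of_essFiniteType_of_isAlgebraic

end Fermat.Agent.S27lib.BR1
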